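/-
C1 nodal core, instantiation, block K (helper284): the integrality transfers `Kron.Transfer1`,
`Kron.Transfer2` between the levels `M` and `M q`, from
* `INT`  : `be x'` is integral over `K[al x']`,
* `POLE` : `be x' / (al x') ^ q` is integral over `K[1 / al x']`,
by the valuative criterion of integrality.
-/
import Fermat.Agent.BAD.LevelQ.Abs.Valuative
import Fermat.Agent.S18.Places.Dedekind
import Fermat.Agent.S34.Nodal.Inst.Kron.Frob
import Fermat.Agent.S34.Nodal.Inst.Kron.Chart2

set_option autoImplicit false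

namespace Fermat.Agent.S34.Nodal.Inst.K

open ModularCurve Fermat.Agent.S18.Vert

section Val

variable {K F : Type*} [Field K] [Field F] [Algebra K F]

/-- The valuative criterion of integrality over `K[x]`. -/
theorem isIntegral_adjoin_iff_val (x z : F) :
    IsIntegral (Algebra.adjoin K {x}) z ↔
      ∀ W : ValuationSubring F, (∀ a : K, algebraMap K F a ∈ W) → x ∈ W → z ∈ W := by
  rw [← S18.mem_chart_top_iff_isIntegral, BAD.LevelQ.mem_chart_iff_forall_valuationSubring]
  exact ⟨fun h W hW => h W fun a _ => hW a, fun h W hW => h W fun a => hW a (Subring.mem_top a)⟩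

/-- Integrality is transported by homomorphisms of `K`-algebras. -/
theorem isIntegral_adjoin_algHom {F' : Type*} [Field F'] [Algebra K F'] (g : F' →ₐ[K] F) {x y : F'}
    (hy : IsIntegral (Algebra.adjoin K {x}) y) : IsIntegral (Algebra.adjoin K {g x}) (g y) := by
  rw [isIntegral_adjoin_iff_val] at hy ⊢
  intro W hW hx
  exact hy (W.comap (g : F' →+* F)) (fun a => by
    show g (algebraMap K F' a) ∈ W
    rw [AlgHom.commutes]
    exact hW a) hx

end Val

variable {K : Type*} [Field K]
variable {F F' : IntermediateField K (LaurentSeries K)} {w : F ≃ₐ[K] F} {q : ℕ} [NeZero q]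

/-- The hypotheses on the base `x'`. -/
structure IntPole (D : Kron.Deg F F' w q) (x' : F') : Prop where
  ne_zero : x' ≠ 0
  int : IsIntegral (Algebra.adjoin K {D.al x'}) (D.be x')
  pole : IsIntegral (Algebra.adjoin K {(D.al x')⁻¹}) (D.be x' / D.al x' ^ q)

namespace IntPole

variable {D : Kron.Deg F F' w q} {x' : F'} (H : IntPole D x')

include H

theorem al_ne_zero : D.al x' ≠ 0 := (map_ne_zero_iff _ D.al.toRingHom.injective).mpr H.ne_zero

theorem be_ne_zero : D.be x' ≠ 0 := (map_ne_zero_iff _ D.be.toRingHom.injective).mpr H.ne_zero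

theorem int' : IsIntegral (Algebra.adjoin K {D.be x'}) (D.al x') := by
  have h := isIntegral_adjoin_algHom (w : F →ₐ[K] F) H.int
  have e1 : (w : F →ₐ[K] F) (D.al x') = D.be x' := D.w_al x'
  have e2 : (w : F →ₐ[K] F) (D.be x') = D.al x' := D.w_be x'
  rwa [e1, e2] at h

theorem pole' : IsIntegral (Algebra.adjoin K {(D.be x')⁻¹}) (D.al x' / D.be x' ^ q) := by
  have h := isIntegral_adjoin_algHom (w : F →ₐ[K] F) H.pole
  have e1 : (w : F →ₐ[K] F) (D.al x') = D.be x' := D.w_al x'
  have e2 : (w : F →ₐ[K] F) (D.be x') = D.al x' := D.w_be x'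
  rwa [map_inv₀, map_div₀, map_pow, e1, e2] at h

/-- In a valuation ring containing `x = al x' * be x'` both factors are integral. -/
theorem mem_of_mul_mem {W : ValuationSubring F} (hW : ∀ a : K, algebraMap K F a ∈ W)
    (hx : D.al x' * D.be x' ∈ W) : D.al x' ∈ W ∧ D.be x' ∈ W := by
  have h1 := (isIntegral_adjoin_iff_val _ _).mp H.int W hW
  have h2 := (isIntegral_adjoin_iff_val _ _).mp H.int' W hW
  have ha : D.al x' ∈ W := by
    by_contra ha
    have ha' : (D.al x')⁻¹ ∈ W := (W.mem_or_inv_mem _).resolve_left ha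
    have hb : D.be x' ∈ W := by
      have := W.mul_mem _ _ ha' hx
      rwa [← mul_assoc, inv_mul_cancel₀ H.al_ne_zero, one_mul] at this
    exact ha (h2 hb)
  exact ⟨ha, h1 ha⟩

/-- In a valuation ring containing `x⁻¹` the inverses of both factors are integral. -/
theorem inv_mem_of_inv_mul_mem {W : ValuationSubring F} (hW : ∀ a : K, algebraMap K F a ∈ W)
    (hx : (D.al x' * D.be x')⁻¹ ∈ W) : (D.al x')⁻¹ ∈ W ∧ (D.be x')⁻¹ ∈ W := by
  have h1 := (isIntegral_adjoin_iff_val _ _).mp H.int W hW
  have h2 := (isIntegral_adjoin_iff_val _ _).mp H.int' W hW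
  rw [mul_inv] at hx
  constructor
  · by_contra ha
    have ha' : D.al x' ∈ W := (W.mem_or_inv_mem _).resolve_right ha
    apply ha
    have := W.mul_mem _ _ hx (h1 ha')
    rwa [mul_assoc, inv_mul_cancel₀ H.be_ne_zero, mul_one] at this
  · by_contra hb
    have hb' : D.be x' ∈ W := (W.mem_or_inv_mem _).resolve_right hb
    apply hb
    have := W.mul_mem _ _ (h2 hb') hx
    rwa [← mul_assoc, mul_inv_cancel₀ H.al_ne_zero, one_mul] at this

/-- **Integrality transfer, chart 1.** -/
theorem transfer1 : Kron.Transfer1 D x' (D.al x' * D.be x') where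
  al a ha := by
    have h := isIntegral_adjoin_algHom D.al ha
    rw [isIntegral_adjoin_iff_val] at h ⊢
    exact fun W hW hx => h W hW (H.mem_of_mul_mem hW hx).1
  be a ha := by
    have h := isIntegral_adjoin_algHom D.be ha
    rw [isIntegral_adjoin_iff_val] at h ⊢
    exact fun W hW hx => h W hW (H.mem_of_mul_mem hW hx).2

/-- **Integrality transfer, chart 2.** -/
theorem transfer2 : Kron.Transfer2 D x' (D.al x' * D.be x') where
  al a ha := by
    have h := isIntegral_adjoin_algHom D.al ha
    rw [isIntegral_adjoin_iff_val, map_inv₀] at h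
    rw [isIntegral_adjoin_iff_val]
    exact fun W hW hx => h W hW (H.inv_mem_of_inv_mul_mem hW hx).1
  be a ha := by
    have h := isIntegral_adjoin_algHom D.be ha
    rw [isIntegral_adjoin_iff_val, map_inv₀] at h
    rw [isIntegral_adjoin_iff_val]
    exact fun W hW hx => h W hW (H.inv_mem_of_inv_mul_mem hW hx).2
  eps := by
    have h := H.pole'
    rw [isIntegral_adjoin_iff_val] at h ⊢
    intro W hW hx
    have := h W hW (H.inv_mem_of_inv_mul_mem hW hx).2
    rwa [div_eq_mul_inv, ← inv_pow, ← map_inv₀] at this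
  eps' := by
    have h := H.pole
    rw [isIntegral_adjoin_iff_val] at h ⊢
    intro W hW hx
    have := h W hW (H.inv_mem_of_inv_mul_mem hW hx).1
    rwa [div_eq_mul_inv, ← inv_pow, ← map_inv₀] at this

end IntPole

end Fermat.Agent.S34.Nodal.Inst.K
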