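/-
C1 nodal core, instantiation, block K (helper284): the fields K1-K3 of `Contracts` for
`F = FN (M q)`, `F' = FN M`, `w = Gal.wAlg W`, `x = α x' * β x'`, for a base `x'` with `BaseOK M q x'`
(`Ord.baseOK_j`, `Ord.baseOK_h2`, `Ord.baseOK_h3`).

Every field is one theorem in the verbatim shape of the field:
`x_ne`, `x_mem`, `xinv_mem`, `Fr2`, `psi`, `Fr2_eq`, `xb`, `Fr2_xb`, `proj1`, `proj2`, `gen1`, `gen2`,
`hcond2`; moreover `coe_Fr2 : (Fr2 f : k((t))) = qExpand k (q ^ 2) f` and `galF_eq : galF M σ x' = x'`.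
-/
import Fermat.Agent.S34.Nodal.Inst.K.Transfer
import Fermat.Agent.S34.Nodal.Inst.G.Mod.Defs
import Fermat.Agent.S34.Nodal.Inst.Gal.Compat
import Fermat.Agent.Lib.Frobenius
import Fermat.Agent.S34.Nodal.Inst.Contracts

set_option autoImplicit false

noncomputable section

namespace Fermat.Agent.S34.Nodal.Inst.K

open ModularCurve AlgebraicCurve Fermat.Agent.S18.Vert Fermat.Agent.S24 Fermat.Agent.S24.B
  Fermat.Agent.GAL Fermat.Agent.GAL.E Polynomial

variable {M q : ℕ} [NeZero M] [NeZero q]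

local notation "FF" => modularFunctionFieldBar (M * q)
local notation "FF'" => modularFunctionFieldBar M

/-- The two degeneracy maps. -/
def deg (W : ALInv M q) : Kron.Deg FF FF' (Gal.wAlg W) q where
  al := heckeAlphaBar Kbar M q
  be := heckeBetaBar Kbar M q
  coe_al := coe_heckeAlphaBar M q
  coe_be := coe_heckeBetaBar M q
  w_al := W.w_alpha
  w_be := W.w_beta

theorem intPole (W : ALInv M q) {x' : FN M} (hx : BaseOK M q x') : IntPole (deg W) x' :=
  ⟨hx.ne_zero, hx.be_int, hx.v_int⟩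

/-! ### The series of `x'` -/

section Series

variable (A : ValuationSubring Kbar)

theorem inc_intCast (X : LaurentSeries ℤ) :
    inc A (coeffMap (Int.castRingHom A) X) = coeffMap (Int.castRingHom Kbar) X := by
  show coeffMap A.subtype _ = _
  rw [coeffMap_coeffMap]
  exact coeffMap_congr (RingHom.ext_int _ _) _

theorem red_intCast (X : LaurentSeries ℤ) :
    S18.Vert.red A (coeffMap (Int.castRingHom A) X) = coeffMap (Int.castRingHom (kk A)) X := by
  show coeffMap (IsLocalRing.residue A) _ = _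
  rw [coeffMap_coeffMap]
  exact coeffMap_congr (RingHom.ext_int _ _) _

omit [NeZero q] in
theorem coeffMap_intCast_ne_zero (k : Type*) [Field k] [CharP k q] {X : LaurentSeries ℤ}
    (hX : coeffMap (Int.castRingHom (ZMod q)) X ≠ 0) : coeffMap (Int.castRingHom k) X ≠ 0 := by
  have e : Int.castRingHom k = (ZMod.castHom (dvd_refl q) k).comp (Int.castRingHom (ZMod q)) :=
    RingHom.ext_int _ _
  rw [e, ← coeffMap_coeffMap]
  exact Gal.coeffMap_ne_zero' _ (ZMod.castHom_injective k) hX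

theorem qExpand_intCast (k : Type*) [Field k] [Fact q.Prime] [CharP k q] (X : LaurentSeries ℤ) :
    qExpand k q (coeffMap (Int.castRingHom k) X) = coeffMap (Int.castRingHom k) X ^ q := by
  rw [pow_char_eq_qExpand q, coeffMap_coeffMap]
  congr 1
  exact coeffMap_congr (RingHom.ext_int _ _) _

end Series

/-- What is needed from the series of `x'`. -/
structure SerData (A : ValuationSubring Kbar) (q : ℕ) [NeZero q] (x' : FN M) : Prop where
  mem : x' ∈ gaussSubring A FF'
  inv_mem : x'⁻¹ ∈ gaussSubring A FF'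
  frob : qExpand (kk A) q (rho A FF' ⟨x', mem⟩) = rho A FF' ⟨x', mem⟩ ^ q
  gal : ∀ σ : GQ, galF M σ x' = x'

theorem serData (hq : q.Prime) (A : ValuationSubring Kbar) (hA : A.LiesOverPrime q) {x' : FN M}
    (hx : BaseOK M q x') : SerData A q x' := by
  obtain ⟨X, hX, hX0⟩ := hx.ser
  have := charP_residueField A q hq hA
  have : Fact q.Prime := ⟨hq⟩
  set XA : LaurentSeries A := coeffMap (Int.castRingHom A) X with hXA
  have h1 : inc A XA = (x' : LaurentSeries Kbar) := by rw [hXA, inc_intCast, hX]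
  have h2 : inc A XA ∈ FF' := by rw [h1]; exact x'.2
  have h3 : S18.Vert.red A XA ≠ 0 := by
    rw [hXA, red_intCast]
    exact coeffMap_intCast_ne_zero (kk A) hX0
  have e : x' = ⟨inc A XA, h2⟩ := Subtype.ext h1.symm
  have hmem : x' ∈ gaussSubring A FF' := by
    rw [e]
    exact inc_mem_gauss XA h2
  have hrho : rho A FF' ⟨x', hmem⟩ = S18.Vert.red A XA := by
    have : (⟨x', hmem⟩ : gaussSubring A FF') = ⟨⟨inc A XA, h2⟩, inc_mem_gauss XA h2⟩ :=
      Subtype.ext e
    rw [this, rho_inc]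
  refine ⟨hmem, ⟨1, XA, by rw [map_one]; exact one_mem _, h2, h3, ?_⟩, ?_, fun σ => ?_⟩
  · rw [h1, map_one, ← IntermediateField.coe_mul, inv_mul_cancel₀ hx.ne_zero,
      IntermediateField.coe_one]
  · rw [hrho, hXA, red_intCast, qExpand_intCast]
  · apply Subtype.ext
    rw [coe_galF, hX, coeffMap_coeffMap]
    exact coeffMap_congr (RingHom.ext_int _ _) _

/-! ### The fields `x_ne`, `x_mem`, `xinv_mem` -/

theorem x_ne {x' : FN M} (hx : BaseOK M q x') :
    heckeAlphaBar Kbar M q x' * heckeBetaBar Kbar M q x' ≠ 0 :=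
  mul_ne_zero ((map_ne_zero_iff _ (heckeAlphaBar Kbar M q).toRingHom.injective).mpr hx.ne_zero)
    ((map_ne_zero_iff _ (heckeBetaBar Kbar M q).toRingHom.injective).mpr hx.ne_zero)

theorem x_mem (W : ALInv M q) {A : ValuationSubring Kbar} {x' : FN M} (S : SerData A q x') :
    heckeAlphaBar Kbar M q x' * heckeBetaBar Kbar M q x' ∈ OO A FF (Gal.wAlg W) :=
  (OO A FF (Gal.wAlg W)).mul_mem ((deg W).al_mem_OO S.mem) ((deg W).be_mem_OO S.mem)

theorem xinv_mem (W : ALInv M q) {A : ValuationSubring Kbar} {x' : FN M} (S : SerData A q x') :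
    (heckeAlphaBar Kbar M q x' * heckeBetaBar Kbar M q x')⁻¹ ∈ OO A FF (Gal.wAlg W) := by
  rw [mul_inv, ← map_inv₀, ← map_inv₀]
  exact (OO A FF (Gal.wAlg W)).mul_mem ((deg W).al_mem_OO S.inv_mem) ((deg W).be_mem_OO S.inv_mem)

/-! ### The lift of the inverse of the Frobenius -/

/-- The lift `galF M σ⁻¹` of the inverse of the Frobenius. -/
def frobInv {A : ValuationSubring Kbar} {x' : FN M} (S : SerData A q x') {σ : GQ}
    (hσ : A.IsFrobeniusAt σ q) : Kron.FrobInv A FF' q x' where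
  φi := Gal.resHom A (⟨σ, hσ.mem_decompositionSubgroup⟩ : A.decompositionSubgroup ℚ)⁻¹
  φi_pow c := by
    rw [← hσ.smul_residue_eq, Gal.resHom_apply, smul_inv_smul]
  s := (galF M ((⟨σ, hσ.mem_decompositionSubgroup⟩ : A.decompositionSubgroup ℚ)⁻¹ :
    A.decompositionSubgroup ℚ) : FN M →+* FN M)
  s_gauss y hy := Gal.galF_mem_gauss _ hy
  s_int y hy := Gal.galF_isIntegral _ (S.gal _) hy
  rho_s y := Gal.rho_galF _ y

/-! ### The fields -/

section Fields

variable (hq : q.Prime) (A : ValuationSubring Kbar) (hA : A.LiesOverPrime q) {x' : FN M}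
  (hx : BaseOK M q x')

/-- The chosen lift of the inverse of the Frobenius. -/
def Phi : Kron.FrobInv A FF' q x' :=
  frobInv (serData hq A hA hx) (Lib.Frobenius.exists_isFrobeniusAt A q hq hA).choose_spec

/-- The field `Fr2`: `f(t) ↦ f(t ^ (q ^ 2))`. -/
def Fr2 : bb A FF' x' →+* bb A FF' x' :=
  @Kron.FrobInv.Fr2 _ _ A FF' q x' (Phi hq A hA hx) ⟨hq⟩ (charP_residueField A q hq hA) _

/-- The field `ψ`: the inverse of the coefficientwise `q ^ 2`-Frobenius. -/
def psi : bb A FF' x' →+* bb A FF' x' := (Phi hq A hA hx).psi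

/-- The field `Fr2_eq`. -/
theorem Fr2_eq : ∀ f, Fr2 hq A hA hx f = psi hq A hA hx f ^ (q ^ 2) :=
  @Kron.FrobInv.Fr2_eq _ _ A FF' q x' (Phi hq A hA hx) ⟨hq⟩ (charP_residueField A q hq hA) _

/-- `Fr2` is `f(t) ↦ f(t ^ (q ^ 2))`. -/
theorem coe_Fr2 (f : bb A FF' x') :
    ((Fr2 hq A hA hx f : bb A FF' x') : LaurentSeries (kk A)) =
      qExpand (kk A) (q ^ 2) (f : LaurentSeries (kk A)) := by
  rw [ModularCurve.qExpand_congr (pow_two q), ← ModularCurve.qExpand_qExpand]
  rfl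

/-- The field `xb`: the reduction of `x'`. -/
def xb : bb A FF' x' :=
  ⟨rho A FF' ⟨x', (serData hq A hA hx).mem⟩, ⟨x', (serData hq A hA hx).mem⟩,
    ⟨(serData hq A hA hx).mem, by
      show IsIntegral (Algebra.adjoin Kbar {x'}) x'
      exact isIntegral_algebraMap (R := Algebra.adjoin Kbar {x'}) (A := FN M)
        (x := ⟨x', Algebra.self_mem_adjoin_singleton Kbar x'⟩)⟩, rfl⟩

theorem coe_xb : ((xb hq A hA hx : bb A FF' x') : LaurentSeries (kk A)) =
    rho A FF' ⟨x', (serData hq A hA hx).mem⟩ := rfl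

/-- The field `Fr2_xb`. -/
theorem Fr2_xb : Fr2 hq A hA hx (xb hq A hA hx) = xb hq A hA hx ^ (q ^ 2) := by
  apply Subtype.ext
  rw [coe_Fr2, SubmonoidClass.coe_pow, coe_xb, ModularCurve.qExpand_congr (pow_two q),
    ← ModularCurve.qExpand_qExpand, (serData hq A hA hx).frob, map_pow, (serData hq A hA hx).frob,
    ← pow_mul, pow_two]

variable (W : ALInv M q)

include hx in
/-- The field `proj1`. -/
theorem proj1 : ∀ c : bb A FF' x', ∃ y : OO A FF (Gal.wAlg W),
    (y : FN (M * q)) ∈ chart A FF (Gal.wAlg W)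
      (heckeAlphaBar Kbar M q x' * heckeBetaBar Kbar M q x') ∧
      (red2 A FF (Gal.wAlg W) y).1 = c :=
  Kron.exists_proj1 (deg W) (intPole W hx).transfer1

include hx in
/-- The field `proj2`. -/
theorem proj2 : ∀ c : bb A FF' x', ∃ y : OO A FF (Gal.wAlg W),
    (y : FN (M * q)) ∈ chart A FF (Gal.wAlg W)
      (heckeAlphaBar Kbar M q x' * heckeBetaBar Kbar M q x') ∧
      (red2 A FF (Gal.wAlg W) y).2 = c :=
  Kron.exists_proj2 (deg W) (intPole W hx).transfer1

/-- The field `gen1`. -/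
theorem gen1 : ∀ f : bb A FF' x', ∃ y : OO A FF (Gal.wAlg W),
    (y : FN (M * q)) ∈ chart A FF (Gal.wAlg W)
      (heckeAlphaBar Kbar M q x' * heckeBetaBar Kbar M q x') ∧
      red2 A FF (Gal.wAlg W) y =
        (((f - Fr2 hq A hA hx f : bb A FF' x') : LaurentSeries (kk A)), 0) :=
  @Kron.exists_gen1 _ _ A FF FF' (Gal.wAlg W) q _ (deg W) x' _ (intPole W hx).transfer1 ⟨hq⟩
    (charP_residueField A q hq hA) (Phi hq A hA hx)

/-- The field `gen2`. -/
theorem gen2 : ∀ f : bb A FF' x', ∃ y : OO A FF (Gal.wAlg W),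
    (y : FN (M * q)) ∈ chart A FF (Gal.wAlg W)
      (heckeAlphaBar Kbar M q x' * heckeBetaBar Kbar M q x') ∧
      red2 A FF (Gal.wAlg W) y =
        (0, ((f - Fr2 hq A hA hx f : bb A FF' x') : LaurentSeries (kk A))) :=
  @Kron.exists_gen2 _ _ A FF FF' (Gal.wAlg W) q _ (deg W) x' _ (intPole W hx).transfer1 ⟨hq⟩
    (charP_residueField A q hq hA) (Phi hq A hA hx)

/-- The field `hcond2`. -/
theorem hcond2 : ∃ P : (kk A)[X], P.eval 0 ≠ 0 ∧
    ∀ v : Om A, v.1 ∈ bb A FF' x'⁻¹ → v.2 ∈ bb A FF' x'⁻¹ →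
      ∃ y : OO A FF (Gal.wAlg W), (y : FN (M * q)) ∈ chart A FF (Gal.wAlg W)
          (heckeAlphaBar Kbar M q x' * heckeBetaBar Kbar M q x')⁻¹ ∧
        red2 A FF (Gal.wAlg W) y =
          aeval (red2 A FF (Gal.wAlg W) ⟨(heckeAlphaBar Kbar M q x' * heckeBetaBar Kbar M q x')⁻¹,
            xinv_mem W (serData hq A hA hx)⟩) P * v :=
  Kron.exists_hcond2 (deg W) (intPole W hx).transfer2 hq.two_le hx.ne_zero
    (serData hq A hA hx).mem (serData hq A hA hx).inv_mem rfl (serData hq A hA hx).frob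
    (xinv_mem W (serData hq A hA hx))

end Fields

end Fermat.Agent.S34.Nodal.Inst.K

end
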